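/-
P-S58, row 1098 (helper64): the multiplication formula at every point.

For a field `K` with `2 ≠ 0`, a Weierstrass curve `W` over `K`, a nonzero point `P` and `n ≥ 1`:
`n • P = 0 ↔ ψ_n(P) = 0`, and if `n • P ≠ 0` then
`(x(P) - x(nP)) ψ_n(P)² = ψ_{n-1}(P) ψ_{n+1}(P)`.

This extends `Fermat.Agent.H74.stepA` / `stepB` (which treat the indices below the order of `P`)
to all indices by means of the three-parameter Ward relation.
-/
import Fermat.Agent.H51.S58.Interfaces2
import Fermat.Agent.H74.DivPolyMain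

set_option autoImplicit false

noncomputable section

open WeierstrassCurve

namespace Fermat.Agent.H64.S58

open Fermat.Agent.H74

/-- The three-parameter Ward relation for `normEDS`, over any commutative ring. -/
theorem s58mult_ward3 {R : Type*} [CommRing R] (b c d : R) (m n r : ℤ) :
    normEDS b c d (m + n) * normEDS b c d (m - n) * normEDS b c d r ^ 2 =
      normEDS b c d (m + r) * normEDS b c d (m - r) * normEDS b c d n ^ 2 -
        normEDS b c d (n + r) * normEDS b c d (n - r) * normEDS b c d m ^ 2 := by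
  have h1 := Fermat.Agent.H72.normEDS_rel b c d m n
  have h2 := Fermat.Agent.H72.normEDS_rel b c d m r
  have h3 := Fermat.Agent.H72.normEDS_rel b c d n r
  linear_combination (normEDS b c d r ^ 2) * h1 - (normEDS b c d n ^ 2) * h2 +
    (normEDS b c d m ^ 2) * h3

section

variable {K : Type*} [Field K] {W : Affine K}

/-- The three-parameter Ward relation for the values of the division polynomials at a point. -/
theorem s58mult_dseq_ward3 (P : W.Point) (m n r : ℤ) :
    dseq P (m + n) * dseq P (m - n) * dseq P r ^ 2 =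
      dseq P (m + r) * dseq P (m - r) * dseq P n ^ 2 -
        dseq P (n + r) * dseq P (n - r) * dseq P m ^ 2 :=
  s58mult_ward3 _ _ _ m n r

/-- If `ψ₂(P) = 0` then `ψ_n(P) = 0` for every even `n`. -/
theorem s58mult_dseq_even_of_two {P : W.Point} (h : dseq P 2 = 0) {n : ℤ} (hn : Even n) :
    dseq P n = 0 := by
  rw [dseq_two] at h
  rw [dseq, normEDS, if_pos hn, h, mul_zero]

variable [DecidableEq K]

/-- `ψ_{aN}(P) = 0` for a point `P` of exact order `N`. -/
theorem s58mult_dseq_mul_order (h2 : (2 : K) ≠ 0) {P : W.Point} (hP : P ≠ 0) {N : ℕ}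
    (hN : 2 ≤ N) (hj : ∀ j : ℕ, 1 ≤ j → j < N → j • P ≠ 0) (hNP : N • P = 0) (a : ℕ) :
    dseq P ((a : ℤ) * (N : ℤ)) = 0 := by
  have hwN : dseq P N = 0 :=
    dseq_eq_zero_of_order (wardIdentity K) (curveDup W) (curveTrip W) (curvePR W) hP hN hj hNP
  rcases Nat.lt_or_ge N 3 with h3 | h3
  · -- `N = 2`
    have hN2 : N = 2 := by omega
    subst hN2
    exact s58mult_dseq_even_of_two (by exact_mod_cast hwN) ⟨a, by push_cast; ring⟩
  · -- `N ≥ 3`
    induction a with
    | zero => simp [dseq_zero]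
    | succ a ih =>
      rcases Nat.eq_zero_or_pos a with ha | ha
      · subst ha
        simpa using hwN
      have hB := stepB (wardIdentity K) (curveDup W) (curveTrip W) (curvePR W) (curveComp2 W)
        (curveTwoTors W h2) hP hN hj hNP ((a - 1) * N + 2) (by omega) (by
          intro hd
          have h2' : N ∣ 2 := (Nat.dvd_add_right (Dvd.intro_left (a - 1) rfl)).mp hd
          have := Nat.le_of_dvd (by norm_num) h2'
          omega)
      have hward := wardIdentity K (ptPsi2 P) (W.Ψ₃.eval (ptX P)) (W.preΨ₄.eval (ptX P))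
        ((a : ℤ) * N + 1) ((N : ℤ) - 1)
      change dseq P ((a : ℤ) * N + 1 + ((N : ℤ) - 1)) * dseq P ((a : ℤ) * N + 1 - ((N : ℤ) - 1)) =
        dseq P ((a : ℤ) * N + 1 + 1) * dseq P ((a : ℤ) * N + 1 - 1) * dseq P ((N : ℤ) - 1) ^ 2 -
          dseq P ((N : ℤ) - 1 + 1) * dseq P ((N : ℤ) - 1 - 1) * dseq P ((a : ℤ) * N + 1) ^ 2
        at hward
      have e1 : (a : ℤ) * N + 1 + ((N : ℤ) - 1) = ((a + 1 : ℕ) : ℤ) * (N : ℤ) := by
        push_cast; ring
      have e2 : (a : ℤ) * N + 1 - ((N : ℤ) - 1) = (((a - 1) * N + 2 : ℕ) : ℤ) := by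
        push_cast [Nat.cast_sub ha]; ring
      have e3 : (a : ℤ) * N + 1 - 1 = (a : ℤ) * N := by ring
      have e4 : (N : ℤ) - 1 + 1 = (N : ℤ) := by ring
      rw [e1, e2, e3, e4, ih, hwN] at hward
      have hz : dseq P (((a + 1 : ℕ) : ℤ) * (N : ℤ)) * dseq P (((a - 1) * N + 2 : ℕ) : ℤ) = 0 := by
        rw [hward]; ring
      exact (mul_eq_zero.mp hz).resolve_right hB

/-- The multiplication formula at a point of finite order, at an index prime to the order. -/
theorem s58mult_formula_of_order (h2 : (2 : K) ≠ 0) {P : W.Point} (hP : P ≠ 0) {N : ℕ}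
    (hN : 2 ≤ N) (hj : ∀ j : ℕ, 1 ≤ j → j < N → j • P ≠ 0) (hNP : N • P = 0) (n : ℕ)
    (hn : ¬ N ∣ n) :
    (ptX P - ptX (n • P)) * dseq P n ^ 2 = dseq P ((n : ℤ) - 1) * dseq P ((n : ℤ) + 1) := by
  -- write `n = a N + s`
  set s := n % N with hs
  set a := n / N with ha
  have hnas : n = a * N + s := by
    rw [hs, ha, mul_comm]; exact (Nat.div_add_mod n N).symm
  have hs0 : 1 ≤ s := by
    rcases Nat.eq_zero_or_pos s with h | h
    · exact absurd (Nat.dvd_of_mod_eq_zero h) hn
    · exact h
  have hsN : s < N := Nat.mod_lt n (by omega)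
  have hA := stepA (wardIdentity K) (curveDup W) (curveTrip W) (curvePR W) hP s hs0
    (fun j h1 h2' => hj j h1 (by omega))
  obtain ⟨hws, hxs⟩ := hA
  have hnP : n • P = s • P := by
    rw [hnas, add_nsmul, mul_nsmul', hNP, smul_zero, zero_add]
  have hwa := s58mult_dseq_mul_order h2 hP hN hj hNP a
  have hw3 := s58mult_dseq_ward3 P (n : ℤ) 1 (s : ℤ)
  have e1 : (n : ℤ) - (s : ℤ) = (a : ℤ) * (N : ℤ) := by
    rw [hnas]; push_cast; ring
  have e2 : (1 : ℤ) - (s : ℤ) = -((s : ℤ) - 1) := by ring
  have e3 : (1 : ℤ) + (s : ℤ) = (s : ℤ) + 1 := by ring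
  rw [e1, hwa, e2, dseq_neg, e3, dseq_one] at hw3
  rw [hnP]
  have key : dseq P (s : ℤ) ^ 2 *
      ((ptX P - ptX (s • P)) * dseq P n ^ 2 - dseq P ((n : ℤ) - 1) * dseq P ((n : ℤ) + 1)) = 0 := by
    linear_combination (dseq P n ^ 2) * hxs - hw3
  have := (mul_eq_zero.mp key).resolve_left (pow_ne_zero 2 hws)
  linear_combination this

/-- **MULT**, general universe. -/
theorem s58mult_main (h2 : (2 : K) ≠ 0) {P : W.Point} (hP : P ≠ 0) (n : ℕ) (hn : 1 ≤ n) :
    (n • P = 0 ↔ dseq P n = 0) ∧
      (n • P ≠ 0 →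
        (ptX P - ptX (n • P)) * dseq P n ^ 2 = dseq P ((n : ℤ) - 1) * dseq P ((n : ℤ) + 1)) := by
  classical
  by_cases hex : ∃ N : ℕ, 1 ≤ N ∧ N • P = 0
  · -- finite order: take the least such `N`
    have hNspec := Nat.find_spec hex
    have hNmin' : ∀ j, j < Nat.find hex → ¬ (1 ≤ j ∧ j • P = 0) :=
      fun j hj => Nat.find_min hex hj
    generalize Nat.find hex = N at hNspec hNmin'
    have hNmin : ∀ j, 1 ≤ j → j < N → j • P ≠ 0 := fun j h1 h2' h3 => hNmin' j h2' ⟨h1, h3⟩
    have hN2 : 2 ≤ N := by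
      rcases Nat.lt_or_ge N 2 with h | h
      · exfalso
        have : N = 1 := by have := hNspec.1; omega
        have h1P := hNspec.2
        rw [this, one_nsmul] at h1P
        exact hP h1P
      · exact h
    have hNP := hNspec.2
    by_cases hd : N ∣ n
    · obtain ⟨a, rfl⟩ := hd
      have hnP : (N * a) • P = 0 := by
        rw [mul_nsmul, hNP, smul_zero]
      have hw : dseq P ((N * a : ℕ) : ℤ) = 0 := by
        have := s58mult_dseq_mul_order h2 hP hN2 hNmin hNP a
        rw [show ((N * a : ℕ) : ℤ) = (a : ℤ) * (N : ℤ) by push_cast; ring]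
        exact this
      exact ⟨⟨fun _ => hw, fun _ => hnP⟩, fun h => absurd hnP h⟩
    · have hw : dseq P (n : ℤ) ≠ 0 :=
        stepB (wardIdentity K) (curveDup W) (curveTrip W) (curvePR W) (curveComp2 W)
          (curveTwoTors W h2) hP hN2 hNmin hNP n hn hd
      have hnP : n • P ≠ 0 := by
        intro h0
        have hmod : (n % N) • P = 0 := by
          have e : (N * (n / N) + n % N) • P = (n % N) • P := by
            rw [add_nsmul, mul_nsmul, hNP, smul_zero, zero_add]
          rw [Nat.div_add_mod n N] at e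
          rw [← e]; exact h0
        have h1 : 1 ≤ n % N := by
          rcases Nat.eq_zero_or_pos (n % N) with h | h
          · exact absurd (Nat.dvd_of_mod_eq_zero h) hd
          · exact h
        exact hNmin (n % N) h1 (Nat.mod_lt n (by omega)) hmod
      exact ⟨⟨fun h => absurd h hnP, fun h => absurd h hw⟩,
        fun _ => s58mult_formula_of_order h2 hP hN2 hNmin hNP n hd⟩
  · -- infinite order
    push Not at hex
    have hA := stepA (wardIdentity K) (curveDup W) (curveTrip W) (curvePR W) hP n hn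
      (fun j h1 _ => hex j h1)
    exact ⟨⟨fun h => absurd h (hex n hn), fun h => absurd h hA.1⟩, fun _ => hA.2⟩

end

/-- **MULT** (row 1098): the multiplication formula and the torsion criterion at every point. -/
theorem multFormula : Fermat.Agent.H51.S58.MultFormulaStatement := by
  intro K _ _ h2 W P hP n hn
  exact s58mult_main h2 hP n hn

end Fermat.Agent.H64.S58

end
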