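/-
P-S58 (helper64, backup seat for UNIP row 1106): auxiliary algebra for the unipotence of `ρ` on
inertia.

* `s58unip_eq_zero_of_forall_mem_span`: in a discrete valuation ring `O` with `p` in the maximal
  ideal, an element lying in `span {p ^ k}` for all `k` is zero.
* `s58unip_charpoly_of_congr`: an endomorphism of a free module of rank two over `O` with
  `tr ≡ 2` and `det ≡ 1` modulo `p ^ k` for all `k` has characteristic polynomial `(X - 1)²`.
-/
import Fermat.Agent.H51.S58.Interfaces2

set_option autoImplicit false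

open Polynomial

namespace Fermat.Agent.H64.S58

/-- In a Noetherian local domain with `p` in the maximal ideal, an element which is divisible by
every power of `p` is zero. -/
theorem s58unip_eq_zero_of_forall_mem_span {O : Type*} [CommRing O] [IsDomain O]
    [IsLocalRing O] [IsNoetherianRing O] {p : ℕ} (hp : (p : O) ∈ IsLocalRing.maximalIdeal O)
    {x : O} (hx : ∀ k : ℕ, x ∈ Ideal.span {((p ^ k : ℕ) : O)}) : x = 0 := by
  have hmem : ∀ k : ℕ, x ∈ IsLocalRing.maximalIdeal O ^ k := by
    intro k
    have hle : Ideal.span {((p ^ k : ℕ) : O)} ≤ IsLocalRing.maximalIdeal O ^ k := by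
      rw [Ideal.span_singleton_le_iff_mem]
      push_cast
      exact Ideal.pow_mem_pow hp k
    exact hle (hx k)
  have hbot : ⨅ k : ℕ, IsLocalRing.maximalIdeal O ^ k = ⊥ :=
    Ideal.iInf_pow_eq_bot_of_isLocalRing _ (IsLocalRing.maximalIdeal.isMaximal O).ne_top
  have : x ∈ ⨅ k : ℕ, IsLocalRing.maximalIdeal O ^ k := by
    rw [Ideal.mem_iInf]
    exact hmem
  rw [hbot] at this
  exact this

/-- An endomorphism of a free module of rank two over a discrete valuation ring with
`tr ≡ 2` and `det ≡ 1` modulo `p ^ k` for all `k` has characteristic polynomial `(X - 1)²`. -/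
theorem s58unip_charpoly_of_congr {O : Type} [CommRing O] [IsDomain O]
    [IsDiscreteValuationRing O] {p : ℕ} (hp : (p : O) ∈ IsLocalRing.maximalIdeal O)
    {V : Type} [AddCommGroup V] [Module O V] [Module.Free O V] [Module.Finite O V]
    (hV : Module.finrank O V = 2) (f : Module.End O V)
    (htr : ∀ k : ℕ, LinearMap.trace O V f - 2 ∈ Ideal.span {((p ^ k : ℕ) : O)})
    (hdet : ∀ k : ℕ, LinearMap.det f - 1 ∈ Ideal.span {((p ^ k : ℕ) : O)}) :
    LinearMap.charpoly f = (X - 1) ^ 2 := by
  have h1 : LinearMap.trace O V f = 2 :=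
    sub_eq_zero.mp (s58unip_eq_zero_of_forall_mem_span hp htr)
  have h2 : LinearMap.det f = 1 :=
    sub_eq_zero.mp (s58unip_eq_zero_of_forall_mem_span hp hdet)
  rw [Fermat.Agent.H51.S58.s58_charpoly_eq hV f, h1, h2]
  simp only [map_ofNat, map_one]
  ring

end Fermat.Agent.H64.S58
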